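/-
S16 helper (helper995): Gaussian sums over `ι → ℤ` attached to a positive definite real
quadratic form: definitions, coercivity, summability.  Mathlib only.
-/
import Mathlib

set_option autoImplicit false

open Complex Real Matrix

noncomputable section

namespace Fermat.Agent.S16.H995

variable {ι : Type*} [Fintype ι]

/-- The real quadratic form `x ↦ xᵀ A x`. -/
def rq (A : Matrix ι ι ℝ) (x : ι → ℝ) : ℝ := ∑ i, ∑ j, x i * A i j * x j

/-- The complexified quadratic form `v ↦ vᵀ A v` (bilinear, not hermitian). -/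
def cq (A : Matrix ι ι ℝ) (v : ι → ℂ) : ℂ := ∑ i, ∑ j, v i * (A i j : ℂ) * v j

/-- The bilinear pairing `b ⬝ v` on complex vectors. -/
def cl (b v : ι → ℂ) : ℂ := ∑ i, b i * v i

/-- Positive definiteness of a real symmetric matrix, in elementary form. -/
structure IsPD (A : Matrix ι ι ℝ) : Prop where
  symm : ∀ i j, A i j = A j i
  pos : ∀ x : ι → ℝ, x ≠ 0 → 0 < rq A x

theorem cq_ofReal (A : Matrix ι ι ℝ) (x : ι → ℝ) :
    cq A (fun i => (x i : ℂ)) = ((rq A x : ℝ) : ℂ) := by
  simp [cq, rq]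

theorem cq_intCast (A : Matrix ι ι ℝ) (x : ι → ℤ) :
    cq A (fun i => (x i : ℂ)) = ((rq A (fun i => (x i : ℝ)) : ℝ) : ℂ) := by
  simp [cq, rq]

theorem rq_smul (A : Matrix ι ι ℝ) (t : ℝ) (x : ι → ℝ) : rq A (t • x) = t ^ 2 * rq A x := by
  simp only [rq, Pi.smul_apply, smul_eq_mul, Finset.mul_sum]
  refine Finset.sum_congr rfl fun i _ => Finset.sum_congr rfl fun j _ => ?_
  ring

theorem continuous_rq (A : Matrix ι ι ℝ) : Continuous (rq A) := by
  unfold rq
  exact continuous_finsetSum _ fun i _ => continuous_finsetSum _ fun j _ =>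
    ((continuous_apply i).mul continuous_const).mul (continuous_apply j)

/-- Coercivity: a positive definite form dominates a multiple of the sum of squares. -/
theorem IsPD.exists_lower_bound {A : Matrix ι ι ℝ} (hA : IsPD A) :
    ∃ c : ℝ, 0 < c ∧ ∀ x : ι → ℝ, c * ∑ i, x i ^ 2 ≤ rq A x := by
  rcases isEmpty_or_nonempty ι with hι | hι
  · refine ⟨1, one_pos, fun x => ?_⟩
    simp [rq]
  · have hcomp : IsCompact (Metric.sphere (0 : ι → ℝ) 1) := isCompact_sphere _ _
    have hne : (Metric.sphere (0 : ι → ℝ) 1).Nonempty := by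
      refine ⟨fun _ => 1, ?_⟩
      simp [pi_norm_const]
    obtain ⟨x₀, hx₀, hmin⟩ := hcomp.exists_isMinOn hne (continuous_rq A).continuousOn
    have hx₀ne : x₀ ≠ 0 := by
      intro h
      rw [h] at hx₀
      simp at hx₀
    have hm : 0 < rq A x₀ := hA.pos x₀ hx₀ne
    have hn : 0 < (Fintype.card ι : ℝ) := by exact_mod_cast Fintype.card_pos
    refine ⟨rq A x₀ / Fintype.card ι, div_pos hm hn, fun x => ?_⟩
    rcases eq_or_ne x 0 with rfl | hx
    · simp [rq]
    · have ht : 0 < ‖x‖ := norm_pos_iff.mpr hx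
      have hy : ‖x‖⁻¹ • x ∈ Metric.sphere (0 : ι → ℝ) 1 := by
        simp [norm_smul, ht.ne']
      have h1 : rq A x₀ ≤ rq A (‖x‖⁻¹ • x) := hmin hy
      rw [rq_smul] at h1
      have h2 : rq A x₀ * ‖x‖ ^ 2 ≤ rq A x := by
        have := mul_le_mul_of_nonneg_right h1 (sq_nonneg ‖x‖)
        calc rq A x₀ * ‖x‖ ^ 2 ≤ ‖x‖⁻¹ ^ 2 * rq A x * ‖x‖ ^ 2 := this
          _ = rq A x := by field_simp
      have h3 : ∑ i, x i ^ 2 ≤ Fintype.card ι * ‖x‖ ^ 2 := by
        calc ∑ i, x i ^ 2 ≤ ∑ _i : ι, ‖x‖ ^ 2 := by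
              refine Finset.sum_le_sum fun i _ => ?_
              have := norm_le_pi_norm x i
              rw [Real.norm_eq_abs] at this
              calc x i ^ 2 = |x i| ^ 2 := (sq_abs _).symm
                _ ≤ ‖x‖ ^ 2 := pow_le_pow_left₀ (abs_nonneg _) this 2
          _ = Fintype.card ι * ‖x‖ ^ 2 := by simp
      calc rq A x₀ / Fintype.card ι * ∑ i, x i ^ 2
          ≤ rq A x₀ / Fintype.card ι * (Fintype.card ι * ‖x‖ ^ 2) :=
            mul_le_mul_of_nonneg_left h3 (div_pos hm hn).le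
        _ = rq A x₀ * ‖x‖ ^ 2 := by field_simp
        _ ≤ rq A x := h2

/-- Summability over `ι → ℤ` of a product of a nonnegative summable function of one variable. -/
theorem summable_prod_pi {f : ℤ → ℝ} (hf : Summable f) (hf0 : ∀ k, 0 ≤ f k) :
    Summable (fun x : ι → ℤ => ∏ i, f (x i)) := by
  classical
  refine summable_of_sum_le (c := (∑' k, f k) ^ Fintype.card ι)
    (fun x => Finset.prod_nonneg fun i _ => hf0 _) fun u => ?_
  let t : ι → Finset ℤ := fun i => u.image (fun x => x i)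
  have hsub : u ⊆ Fintype.piFinset t := by
    intro x hx
    rw [Fintype.mem_piFinset]
    intro i
    exact Finset.mem_image_of_mem _ hx
  calc ∑ x ∈ u, ∏ i, f (x i) ≤ ∑ x ∈ Fintype.piFinset t, ∏ i, f (x i) :=
        Finset.sum_le_sum_of_subset_of_nonneg hsub
          fun x _ _ => Finset.prod_nonneg fun i _ => hf0 _
    _ = ∏ i, ∑ j ∈ t i, f j := (Finset.prod_univ_sum t fun _ j => f j).symm
    _ ≤ ∏ _i : ι, ∑' k, f k := by
        refine Finset.prod_le_prod (fun i _ => Finset.sum_nonneg fun j _ => hf0 j) fun i _ => ?_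
        exact hf.sum_le_tsum _ fun j _ => hf0 j
    _ = (∑' k, f k) ^ Fintype.card ι := by simp

/-- The real Gaussian bound family is summable. -/
theorem summable_real_gauss {A : Matrix ι ι ℝ} (hA : IsPD A) {T : ℝ} (hT : 0 < T) (B : ℝ) :
    Summable (fun x : ι → ℤ =>
      Real.exp (-π * T * rq A (fun i => (x i : ℝ)) + 2 * π * B * ∑ i, |(x i : ℝ)|)) := by
  obtain ⟨c, hc, hbound⟩ := hA.exists_lower_bound
  have h1 : Summable (fun n : ℤ => Real.exp (-π * (T * c * (n : ℝ) ^ 2 - 2 * B * |(n : ℝ)|))) := by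
    have := summable_pow_mul_jacobiTheta₂_term_bound B (mul_pos hT hc) 0
    simpa using this
  have h2 := summable_prod_pi (ι := ι) h1 (fun k => (Real.exp_pos _).le)
  refine Summable.of_nonneg_of_le (fun x => (Real.exp_pos _).le) (fun x => ?_) h2
  rw [← Real.exp_sum]
  apply Real.exp_le_exp.mpr
  have hb := hbound (fun i => (x i : ℝ))
  have : ∑ i, -π * (T * c * (x i : ℝ) ^ 2 - 2 * B * |(x i : ℝ)|)
      = -π * T * (c * ∑ i, (x i : ℝ) ^ 2) + 2 * π * B * ∑ i, |(x i : ℝ)| := by
    simp only [Finset.mul_sum, ← Finset.sum_add_distrib]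
    refine Finset.sum_congr rfl fun i _ => ?_
    ring
  rw [this]
  have hπT : 0 ≤ π * T := (mul_pos pi_pos hT).le
  nlinarith [mul_le_mul_of_nonneg_left hb hπT]

end Fermat.Agent.S16.H995

end
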