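/-
S16 helper (helper995): summability of complex Gaussian sums over `ι → ℤ`, and the bridge between
the elementary predicate `IsPD` and Mathlib's `Matrix.PosDef`.  Mathlib only.
-/
import Fermat.Agent.S16.H995.GaussBasic

set_option autoImplicit false

open Complex Real Matrix

noncomputable section

namespace Fermat.Agent.S16.H995

variable {ι : Type*} [Fintype ι]

/-- The Gaussian term `exp (-π s xᵀAx + 2π b⬝x)`. -/
def gterm (A : Matrix ι ι ℝ) (s : ℂ) (b : ι → ℂ) (x : ι → ℤ) : ℂ :=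
  cexp (-π * s * cq A (fun i => (x i : ℂ)) + 2 * π * cl b (fun i => (x i : ℂ)))

theorem norm_gterm (A : Matrix ι ι ℝ) (s : ℂ) (b : ι → ℂ) (x : ι → ℤ) :
    ‖gterm A s b x‖ =
      Real.exp (-π * s.re * rq A (fun i => (x i : ℝ)) + 2 * π * ∑ i, (b i).re * (x i : ℝ)) := by
  rw [gterm, Complex.norm_exp, cq_intCast]
  congr 1
  have h1 : (-(π : ℂ) * s * ((rq A (fun i => (x i : ℝ)) : ℝ) : ℂ)).re
      = -π * s.re * rq A (fun i => (x i : ℝ)) := by
    have : -(π : ℂ) * s * ((rq A (fun i => (x i : ℝ)) : ℝ) : ℂ)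
        = ((-π * rq A (fun i => (x i : ℝ)) : ℝ) : ℂ) * s := by push_cast; ring
    rw [this, Complex.re_ofReal_mul]
    ring
  have h2 : (2 * (π : ℂ) * cl b (fun i => (x i : ℂ))).re = 2 * π * ∑ i, (b i).re * (x i : ℝ) := by
    have : 2 * (π : ℂ) * cl b (fun i => (x i : ℂ)) = ((2 * π : ℝ) : ℂ) * cl b (fun i => (x i : ℂ)) := by
      push_cast; ring
    rw [this, Complex.re_ofReal_mul, cl, Complex.re_sum]
    congr 1
    refine Finset.sum_congr rfl fun i _ => ?_
    have : ((x i : ℤ) : ℂ) = (((x i : ℤ) : ℝ) : ℂ) := by push_cast; rfl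
    rw [this, Complex.re_mul_ofReal]
  rw [Complex.add_re, h1, h2]

/-- The norm of a Gaussian term only depends on `re s` and `re b`. -/
theorem norm_gterm_congr (A : Matrix ι ι ℝ) {s s' : ℂ} {b b' : ι → ℂ} (hs : s.re = s'.re)
    (hb : ∀ i, (b i).re = (b' i).re) (x : ι → ℤ) : ‖gterm A s b x‖ = ‖gterm A s' b' x‖ := by
  rw [norm_gterm, norm_gterm, hs]
  simp only [hb]

theorem summable_norm_gterm {A : Matrix ι ι ℝ} (hA : IsPD A) {s : ℂ} (hs : 0 < s.re)
    (b : ι → ℂ) : Summable (fun x : ι → ℤ => ‖gterm A s b x‖) := by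
  set B : ℝ := ∑ i, |(b i).re| with hB
  have hBi : ∀ i, |(b i).re| ≤ B := fun i =>
    Finset.single_le_sum (f := fun i => |(b i).re|) (fun i _ => abs_nonneg _) (Finset.mem_univ i)
  refine Summable.of_nonneg_of_le (fun x => norm_nonneg _) (fun x => ?_)
    (summable_real_gauss hA hs B)
  rw [norm_gterm]
  apply Real.exp_le_exp.mpr
  have h : ∑ i, (b i).re * (x i : ℝ) ≤ B * ∑ i, |(x i : ℝ)| := by
    rw [Finset.mul_sum]
    refine Finset.sum_le_sum fun i _ => ?_
    calc (b i).re * (x i : ℝ) ≤ |(b i).re * (x i : ℝ)| := le_abs_self _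
      _ = |(b i).re| * |(x i : ℝ)| := abs_mul _ _
      _ ≤ B * |(x i : ℝ)| := mul_le_mul_of_nonneg_right (hBi i) (abs_nonneg _)
  have hπ : 0 ≤ 2 * π := by positivity
  nlinarith [mul_le_mul_of_nonneg_left h hπ]

theorem summable_gterm {A : Matrix ι ι ℝ} (hA : IsPD A) {s : ℂ} (hs : 0 < s.re)
    (b : ι → ℂ) : Summable (gterm A s b) :=
  (summable_norm_gterm hA hs b).of_norm

/-! ### Bridge to `Matrix.PosDef` -/

theorem rq_eq_dotProduct (A : Matrix ι ι ℝ) (x : ι → ℝ) : rq A x = x ⬝ᵥ (A *ᵥ x) := by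
  simp only [rq, dotProduct, mulVec, Finset.mul_sum]
  refine Finset.sum_congr rfl fun i _ => Finset.sum_congr rfl fun j _ => ?_
  ring

theorem IsPD.posDef {A : Matrix ι ι ℝ} (hA : IsPD A) : A.PosDef := by
  rw [Matrix.posDef_iff_dotProduct_mulVec]
  refine ⟨?_, fun x hx => ?_⟩
  · ext i j
    simpa using hA.symm j i
  · have := hA.pos x hx
    rwa [rq_eq_dotProduct] at this

theorem isPD_of_posDef {A : Matrix ι ι ℝ} (hA : A.PosDef) : IsPD A := by
  rw [Matrix.posDef_iff_dotProduct_mulVec] at hA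
  refine ⟨fun i j => ?_, fun x hx => ?_⟩
  · have := congrFun (congrFun hA.1 j) i
    simpa using this
  · rw [rq_eq_dotProduct]
    simpa using hA.2 hx

theorem IsPD.det_pos [DecidableEq ι] {A : Matrix ι ι ℝ} (hA : IsPD A) : 0 < A.det :=
  hA.posDef.det_pos

theorem IsPD.inv [DecidableEq ι] {A : Matrix ι ι ℝ} (hA : IsPD A) : IsPD A⁻¹ :=
  isPD_of_posDef hA.posDef.inv

theorem IsPD.isUnit_det [DecidableEq ι] {A : Matrix ι ι ℝ} (hA : IsPD A) : IsUnit A.det :=
  isUnit_iff_ne_zero.mpr hA.det_pos.ne'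

end Fermat.Agent.S16.H995

end
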