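/-
S16 helper (helper995): block (Schur complement) algebra for quadratic forms indexed by `Option α`.
Mathlib only.
-/
import Fermat.Agent.S16.H995.GaussSummable

set_option autoImplicit false
set_option linter.unusedSectionVars false

open Complex Real Matrix

noncomputable section

namespace Fermat.Agent.S16.H995

variable {α : Type*} [Fintype α]

/-- The Schur complement of the corner entry `A none none`. -/
def schur (A : Matrix (Option α) (Option α) ℝ) : Matrix α α ℝ :=
  Matrix.of fun i j => A (some i) (some j) - A none (some i) * A none (some j) / A none none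

/-- The first row (without the corner), as a complex vector. -/
def rowC (A : Matrix (Option α) (Option α) ℝ) : α → ℂ := fun j => ((A none (some j) : ℝ) : ℂ)

/-- Extend a vector on `α` to `Option α`. -/
def ocons {R : Type*} (k : R) (v : α → R) : Option α → R := fun o => o.elim k v

@[simp] theorem ocons_none {R : Type*} (k : R) (v : α → R) : ocons k v none = k := rfl
@[simp] theorem ocons_some {R : Type*} (k : R) (v : α → R) (i : α) : ocons k v (some i) = v i := rfl

theorem ocons_eta {R : Type*} (v : Option α → R) : ocons (v none) (fun i => v (some i)) = v := by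
  funext o; cases o <;> rfl

theorem cl_ocons (b0 k : ℂ) (b v : α → ℂ) : cl (ocons b0 b) (ocons k v) = b0 * k + cl b v := by
  simp [cl, Fintype.sum_option]

theorem cq_ocons_aux (A : Matrix (Option α) (Option α) ℝ) (hs : ∀ i j, A i j = A j i)
    (k : ℂ) (v : α → ℂ) :
    cq A (ocons k v) = (A none none : ℂ) * k ^ 2 + 2 * k * cl (rowC A) v
      + ∑ i, ∑ j, v i * ((A (some i) (some j) : ℝ) : ℂ) * v j := by
  simp only [cq, Fintype.sum_option, ocons_none, ocons_some, cl, rowC]
  have h1 : ∀ i : α, A (some i) none = A none (some i) := fun i => hs _ _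
  simp only [h1, Finset.sum_add_distrib, Finset.mul_sum]
  have h2 : ∑ x, v x * ((A none (some x) : ℝ) : ℂ) * k = ∑ x, k * ((A none (some x) : ℝ) : ℂ) * v x :=
    Finset.sum_congr rfl fun x _ => by ring
  have h3 : ∑ i, 2 * k * (((A none (some i) : ℝ) : ℂ) * v i)
      = ∑ x, k * ((A none (some x) : ℝ) : ℂ) * v x + ∑ x, k * ((A none (some x) : ℝ) : ℂ) * v x := by
    rw [← Finset.sum_add_distrib]
    exact Finset.sum_congr rfl fun x _ => by ring
  rw [h2, h3]
  ring

theorem cq_schur (A : Matrix (Option α) (Option α) ℝ) (ha : A none none ≠ 0) (v : α → ℂ) :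
    ∑ i, ∑ j, v i * ((A (some i) (some j) : ℝ) : ℂ) * v j
      = cq (schur A) v + (cl (rowC A) v) ^ 2 / (A none none : ℂ) := by
  have hc : ((A none none : ℝ) : ℂ) ≠ 0 := by exact_mod_cast ha
  have h1 : (cl (rowC A) v) ^ 2 = ∑ i, ∑ j, v i * (rowC A i * rowC A j) * v j := by
    rw [sq, cl, Finset.sum_mul_sum]
    exact Finset.sum_congr rfl fun i _ => Finset.sum_congr rfl fun j _ => by ring
  rw [h1, cq, Finset.sum_div, ← Finset.sum_add_distrib]
  refine Finset.sum_congr rfl fun i _ => ?_
  rw [Finset.sum_div, ← Finset.sum_add_distrib]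
  refine Finset.sum_congr rfl fun j _ => ?_
  simp only [schur, Matrix.of_apply, rowC]
  push_cast
  field_simp
  ring

/-- Completing the square. -/
theorem cq_ocons (A : Matrix (Option α) (Option α) ℝ) (hs : ∀ i j, A i j = A j i)
    (ha : A none none ≠ 0) (k : ℂ) (v : α → ℂ) :
    cq A (ocons k v) = (A none none : ℂ) * k ^ 2 + 2 * k * cl (rowC A) v
      + (cl (rowC A) v) ^ 2 / (A none none : ℂ) + cq (schur A) v := by
  rw [cq_ocons_aux A hs, cq_schur A ha]
  ring

theorem ocons_ofReal (k : ℝ) (v : α → ℝ) :
    (fun o => ((ocons k v o : ℝ) : ℂ)) = ocons (k : ℂ) (fun i => (v i : ℂ)) := by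
  funext o; cases o <;> rfl

theorem ocons_intCast (k : ℤ) (v : α → ℤ) :
    (fun o => ((ocons k v o : ℤ) : ℂ)) = ocons (k : ℂ) (fun i => (v i : ℂ)) := by
  funext o; cases o <;> rfl

/-- Real version of completing the square. -/
theorem rq_ocons (A : Matrix (Option α) (Option α) ℝ) (hs : ∀ i j, A i j = A j i)
    (ha : A none none ≠ 0) (k : ℝ) (v : α → ℝ) :
    rq A (ocons k v) = A none none * (k + (∑ j, A none (some j) * v j) / A none none) ^ 2
      + rq (schur A) v := by
  have h := cq_ocons A hs ha (k : ℂ) (fun i => (v i : ℂ))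
  rw [← ocons_ofReal, cq_ofReal, cq_ofReal] at h
  have hcl : cl (rowC A) (fun i => (v i : ℂ)) = ((∑ j, A none (some j) * v j : ℝ) : ℂ) := by
    simp [cl, rowC]
  rw [hcl] at h
  have h' : ((rq A (ocons k v) : ℝ) : ℂ) = ((A none none * k ^ 2
      + 2 * k * (∑ j, A none (some j) * v j) + (∑ j, A none (some j) * v j) ^ 2 / A none none
      + rq (schur A) v : ℝ) : ℂ) := by
    rw [h]; push_cast; ring
  have h'' := Complex.ofReal_injective h'
  rw [h'']
  field_simp
  ring

theorem IsPD.corner_pos {A : Matrix (Option α) (Option α) ℝ} (hA : IsPD A) : 0 < A none none := by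
  classical
  have := hA.pos (ocons 1 0) (by
    intro h
    have := congrFun h none
    simp at this)
  have h2 : rq A (ocons (1 : ℝ) (0 : α → ℝ)) = A none none := by
    simp [rq, Fintype.sum_option]
  rwa [h2] at this

theorem IsPD.schur {A : Matrix (Option α) (Option α) ℝ} (hA : IsPD A) : IsPD (schur A) := by
  have ha := hA.corner_pos
  refine ⟨fun i j => ?_, fun x hx => ?_⟩
  · simp only [Fermat.Agent.S16.H995.schur, Matrix.of_apply]
    rw [hA.symm (some i) (some j)]
    ring
  · have hne : ocons (-(∑ j, A none (some j) * x j) / A none none) x ≠ 0 := by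
      intro h
      apply hx
      funext i
      have := congrFun h (some i)
      simpa using this
    have := hA.pos _ hne
    rw [rq_ocons A hA.symm ha.ne'] at this
    have hz : -(∑ j, A none (some j) * x j) / A none none
        + (∑ j, A none (some j) * x j) / A none none = 0 := by ring
    rw [hz] at this
    simpa using this

end Fermat.Agent.S16.H995

end
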