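/-
S16 helper (helper995): determinant and inverse of a positive definite matrix indexed by
`Option α` in terms of the Schur complement.  Mathlib only.
-/
import Fermat.Agent.S16.H995.GaussBlock

set_option autoImplicit false
set_option linter.unusedSectionVars false

open Complex Real Matrix

noncomputable section

namespace Fermat.Agent.S16.H995


section inv
variable {ι : Type*} [Fintype ι]

/-- If `A u = w` (complexified), then `wᵀ A⁻¹ w = w ⬝ u`. -/
theorem cq_inv_eq [DecidableEq ι] {A : Matrix ι ι ℝ} (hdet : IsUnit A.det) (u w : ι → ℂ)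
    (h : ∀ i, ∑ j, ((A i j : ℝ) : ℂ) * u j = w i) : cq A⁻¹ w = cl w u := by
  have hinv : A⁻¹ * A = 1 := Matrix.nonsing_inv_mul A hdet
  have key : ∀ i, ∑ j, ((A⁻¹ i j : ℝ) : ℂ) * w j = u i := by
    intro i
    simp_rw [← h, Finset.mul_sum]
    rw [Finset.sum_comm]
    have : ∀ k, ∑ j, ((A⁻¹ i j : ℝ) : ℂ) * (((A j k : ℝ) : ℂ) * u k)
        = (((A⁻¹ * A) i k : ℝ) : ℂ) * u k := by
      intro k
      rw [Matrix.mul_apply]
      push_cast
      rw [Finset.sum_mul]
      exact Finset.sum_congr rfl fun j _ => by ring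
    simp_rw [this, hinv, Matrix.one_apply]
    simp only [apply_ite (Complex.ofReal), Complex.ofReal_one, Complex.ofReal_zero, ite_mul, one_mul,
      zero_mul, Finset.sum_ite_eq, Finset.mem_univ, if_true]
  rw [cq, cl]
  refine Finset.sum_congr rfl fun i _ => ?_
  rw [← key i, Finset.mul_sum]
  exact Finset.sum_congr rfl fun j _ => by ring

end inv

variable {α : Type*} [Fintype α]

theorem cq_inv_ocons [DecidableEq α] {A : Matrix (Option α) (Option α) ℝ} (hA : IsPD A)
    (w0 : ℂ) (w : α → ℂ) :
    cq A⁻¹ (ocons w0 w) = w0 ^ 2 / (A none none : ℂ)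
      + cq (schur A)⁻¹ (fun i => w i - w0 / (A none none : ℂ) * rowC A i) := by
  have ha := hA.corner_pos
  have hac : ((A none none : ℝ) : ℂ) ≠ 0 := by exact_mod_cast ha.ne'
  have hS := hA.schur
  set S := schur A with hSdef
  set z : α → ℂ := fun i => w i - w0 / (A none none : ℂ) * rowC A i with hz
  set u' : α → ℂ := fun i => ∑ j, ((S⁻¹ i j : ℝ) : ℂ) * z j with hu'
  have hSS : S * S⁻¹ = 1 := Matrix.mul_nonsing_inv S hS.isUnit_det
  have hSu : ∀ i, ∑ j, ((S i j : ℝ) : ℂ) * u' j = z i := by
    intro i
    simp only [hu', Finset.mul_sum]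
    rw [Finset.sum_comm]
    have : ∀ k, ∑ j, ((S i j : ℝ) : ℂ) * (((S⁻¹ j k : ℝ) : ℂ) * z k)
        = (((S * S⁻¹) i k : ℝ) : ℂ) * z k := by
      intro k
      rw [Matrix.mul_apply]
      push_cast
      rw [Finset.sum_mul]
      exact Finset.sum_congr rfl fun j _ => by ring
    simp_rw [this, hSS, Matrix.one_apply]
    simp only [apply_ite (Complex.ofReal), Complex.ofReal_one, Complex.ofReal_zero, ite_mul, one_mul,
      zero_mul, Finset.sum_ite_eq, Finset.mem_univ, if_true]
  set u0 : ℂ := (w0 - cl (rowC A) u') / (A none none : ℂ) with hu0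
  have hAu : ∀ o, ∑ j, ((A o j : ℝ) : ℂ) * (ocons u0 u') j = (ocons w0 w) o := by
    intro o
    rw [Fintype.sum_option]
    cases o with
    | none =>
      simp only [ocons_none, ocons_some]
      have : ∑ j, ((A none (some j) : ℝ) : ℂ) * u' j = cl (rowC A) u' := rfl
      rw [this, hu0]
      field_simp
      ring
    | some i =>
      simp only [ocons_none, ocons_some]
      have h1 : ∀ j, ((A (some i) (some j) : ℝ) : ℂ)
          = ((S i j : ℝ) : ℂ) + rowC A i * rowC A j / (A none none : ℂ) := by
        intro j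
        simp only [hSdef, schur, Matrix.of_apply, rowC]
        push_cast
        ring
      have h2 : ∑ j, ((A (some i) (some j) : ℝ) : ℂ) * u' j
          = z i + rowC A i * cl (rowC A) u' / (A none none : ℂ) := by
        simp_rw [h1, add_mul, Finset.sum_add_distrib, hSu i]
        congr 1
        rw [cl, Finset.mul_sum, Finset.sum_div]
        exact Finset.sum_congr rfl fun j _ => by ring
      have h3 : ((A (some i) none : ℝ) : ℂ) = rowC A i := by
        rw [hA.symm (some i) none]; rfl
      rw [h2, h3, hu0, hz]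
      field_simp
      ring
  rw [cq_inv_eq hA.isUnit_det (ocons u0 u') (ocons w0 w) hAu, cl_ocons,
    cq_inv_eq hS.isUnit_det u' z hSu]
  have h4 : cl z u' = cl w u' - w0 / (A none none : ℂ) * cl (rowC A) u' := by
    simp only [cl, hz, Finset.mul_sum, ← Finset.sum_sub_distrib]
    exact Finset.sum_congr rfl fun j _ => by ring
  rw [h4, hu0]
  field_simp
  ring




/-- The determinant of a matrix on `Option α` via the Schur complement. -/
theorem det_eq_corner_mul_det_schur [DecidableEq α] (A : Matrix (Option α) (Option α) ℝ)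
    (hs : ∀ i j, A i j = A j i) (ha : A none none ≠ 0) :
    A.det = A none none * (schur A).det := by
  classical
  let e : Option α ≃ PUnit.{1} ⊕ α := (Equiv.optionEquivSumPUnit α).trans (Equiv.sumComm α PUnit)
  have he_none : e none = Sum.inl PUnit.unit := rfl
  have he_some : ∀ i, e (some i) = Sum.inr i := fun i => rfl
  have hes_inl : ∀ u, e.symm (Sum.inl u) = none := fun u => by
    rw [Equiv.symm_apply_eq]; rfl
  have hes_inr : ∀ i, e.symm (Sum.inr i) = some i := fun i => by
    rw [Equiv.symm_apply_eq]; rfl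
  let P : Matrix PUnit.{1} PUnit.{1} ℝ := Matrix.of fun _ _ => A none none
  let Pi : Matrix PUnit.{1} PUnit.{1} ℝ := Matrix.of fun _ _ => (A none none)⁻¹
  let Q : Matrix PUnit.{1} α ℝ := Matrix.of fun _ j => A none (some j)
  let R : Matrix α PUnit.{1} ℝ := Matrix.of fun i _ => A none (some i)
  let D : Matrix α α ℝ := Matrix.of fun i j => A (some i) (some j)
  have hA1 : A.submatrix e.symm e.symm = Matrix.fromBlocks P Q R D := by
    ext i j
    rcases i with u | i <;> rcases j with v | j
    · simp [P, hes_inl]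
    · simp [Q, hes_inl, hes_inr]
    · simp [R, hes_inl, hes_inr, hs (some i) none]
    · simp [D, hes_inr]
  have hPPi : P * Pi = 1 := by
    ext u v
    simp [P, Pi, Matrix.mul_apply, ha]
  have hPiP : Pi * P = 1 := by
    ext u v
    simp [P, Pi, Matrix.mul_apply, ha]
  let _ : Invertible P := ⟨Pi, hPiP, hPPi⟩
  have hdet : (A.submatrix e.symm e.symm).det = A.det := Matrix.det_submatrix_equiv_self e.symm A
  rw [← hdet, hA1, Matrix.det_fromBlocks₁₁]
  have hP : P.det = A none none := by
    rw [Matrix.det_unique]; rfl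
  have hS : D - R * ⅟P * Q = schur A := by
    ext i j
    have : ⅟P = Pi := rfl
    rw [this]
    simp [D, R, Pi, Q, schur, Matrix.mul_apply, div_eq_mul_inv]
    ring
  rw [hP, hS]


end Fermat.Agent.S16.H995

end
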