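/-
S16 helper (helper995): statement of the Gaussian inversion formula, dual terms, summability of the
dual family, transport along equivalences.  Mathlib only.
-/
import Fermat.Agent.S16.H995.GaussSchur

set_option autoImplicit false
set_option linter.unusedSectionVars false

open Complex Real Matrix

noncomputable section

namespace Fermat.Agent.S16.H995

section general
variable {ι : Type*} [Fintype ι]

/-- The dual Gaussian term `exp (-(π/s) (y + i b)ᵀ A⁻¹ (y + i b))`. -/
def dterm [DecidableEq ι] (A : Matrix ι ι ℝ) (s : ℂ) (b : ι → ℂ) (y : ι → ℤ) : ℂ :=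
  cexp (-π / s * cq A⁻¹ (fun i => (y i : ℂ) + I * b i))

/-- The constant `s^{-n/2} (det A)^{-1/2}` in the inversion formula. -/
def gconst [DecidableEq ι] (A : Matrix ι ι ℝ) (s : ℂ) : ℂ :=
  1 / (s ^ (1 / 2 : ℂ)) ^ (Fintype.card ι) * (1 / ((Real.sqrt A.det : ℝ) : ℂ))

/-- Bilinear expansion of `cq M (v + i b)` for symmetric `M`. -/
theorem cq_add_I_mul (M : Matrix ι ι ℝ) (hs : ∀ i j, M i j = M j i) (v b : ι → ℂ) :
    cq M (fun i => v i + I * b i)
      = cq M v + 2 * I * cl (fun i => ∑ j, ((M i j : ℝ) : ℂ) * b j) v - cq M b := by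
  have h1 : cl (fun i => ∑ j, ((M i j : ℝ) : ℂ) * b j) v = ∑ i, ∑ j, v i * ((M i j : ℝ) : ℂ) * b j := by
    simp only [cl, Finset.sum_mul]
    exact Finset.sum_congr rfl fun i _ => Finset.sum_congr rfl fun j _ => by ring
  have h2 : ∑ i, ∑ j, b i * ((M i j : ℝ) : ℂ) * v j = ∑ i, ∑ j, v i * ((M i j : ℝ) : ℂ) * b j := by
    rw [Finset.sum_comm]
    refine Finset.sum_congr rfl fun i _ => Finset.sum_congr rfl fun j _ => ?_
    rw [hs j i]; ring
  have h3 : cq M (fun i => v i + I * b i) = cq M v + I * (∑ i, ∑ j, v i * ((M i j : ℝ) : ℂ) * b j)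
      + I * (∑ i, ∑ j, b i * ((M i j : ℝ) : ℂ) * v j) - cq M b := by
    simp only [cq, Finset.mul_sum, ← Finset.sum_add_distrib, ← Finset.sum_sub_distrib]
    refine Finset.sum_congr rfl fun i _ => Finset.sum_congr rfl fun j _ => ?_
    linear_combination (b i * ((M i j : ℝ) : ℂ) * b j) * I_sq
  rw [h3, h2, h1]
  ring

theorem one_div_re_pos {s : ℂ} (hs : 0 < s.re) : 0 < (1 / s).re := by
  rw [one_div, Complex.inv_re]
  exact div_pos hs (Complex.normSq_pos.mpr (fun h => by rw [h] at hs; simp at hs))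

theorem dterm_eq_gterm [DecidableEq ι] {A : Matrix ι ι ℝ} (hA : IsPD A) (s : ℂ) (b : ι → ℂ)
    (y : ι → ℤ) :
    dterm A s b y = cexp (π / s * cq A⁻¹ b)
      * gterm A⁻¹ (1 / s) (fun i => -(I / s) * ∑ j, ((A⁻¹ i j : ℝ) : ℂ) * b j) y := by
  rw [dterm, gterm, ← Complex.exp_add, cq_add_I_mul A⁻¹ hA.inv.symm]
  congr 1
  have : cl (fun i => -(I / s) * ∑ j, ((A⁻¹ i j : ℝ) : ℂ) * b j) (fun i => (y i : ℂ))
      = -(I / s) * cl (fun i => ∑ j, ((A⁻¹ i j : ℝ) : ℂ) * b j) (fun i => (y i : ℂ)) := by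
    rw [cl, cl, Finset.mul_sum]
    exact Finset.sum_congr rfl fun i _ => by ring
  rw [this]
  ring

theorem summable_dterm [DecidableEq ι] {A : Matrix ι ι ℝ} (hA : IsPD A) {s : ℂ} (hs : 0 < s.re)
    (b : ι → ℂ) : Summable (dterm A s b) := by
  have h := (summable_gterm hA.inv (one_div_re_pos hs)
    (fun i => -(I / s) * ∑ j, ((A⁻¹ i j : ℝ) : ℂ) * b j)).mul_left (cexp (π / s * cq A⁻¹ b))
  refine h.congr fun y => ?_
  rw [dterm_eq_gterm hA]

/-- The inversion formula for Gaussian sums (statement for a fixed index type). -/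
def GaussInv (ι : Type*) [Fintype ι] : Prop :=
  ∀ (_ : DecidableEq ι) (A : Matrix ι ι ℝ), IsPD A → ∀ (s : ℂ), 0 < s.re → ∀ b : ι → ℂ,
    ∑' x, gterm A s b x = gconst A s * ∑' y, dterm A s b y

/-! ### Transport along an equivalence -/

theorem cq_reindex {κ : Type*} [Fintype κ] (e : ι ≃ κ) (B : Matrix κ κ ℝ) (v : ι → ℂ) :
    cq B (fun j => v (e.symm j)) = cq (B.submatrix e e) v := by
  simp only [cq, Matrix.submatrix_apply]
  rw [← Equiv.sum_comp e]
  refine Finset.sum_congr rfl fun i _ => ?_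
  rw [← Equiv.sum_comp e]
  simp

theorem cl_reindex {κ : Type*} [Fintype κ] (e : ι ≃ κ) (b : κ → ℂ) (v : ι → ℂ) :
    cl b (fun j => v (e.symm j)) = cl (fun i => b (e i)) v := by
  simp only [cl]
  rw [← Equiv.sum_comp e]
  simp

theorem rq_reindex {κ : Type*} [Fintype κ] (e : ι ≃ κ) (B : Matrix κ κ ℝ) (v : ι → ℝ) :
    rq B (fun j => v (e.symm j)) = rq (B.submatrix e e) v := by
  simp only [rq, Matrix.submatrix_apply]
  rw [← Equiv.sum_comp e]
  refine Finset.sum_congr rfl fun i _ => ?_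
  rw [← Equiv.sum_comp e]
  simp

theorem IsPD.submatrix {κ : Type*} [Fintype κ] (e : ι ≃ κ) {B : Matrix κ κ ℝ} (hB : IsPD B) :
    IsPD (B.submatrix e e) := by
  refine ⟨fun i j => hB.symm _ _, fun x hx => ?_⟩
  rw [← rq_reindex]
  apply hB.pos
  intro h
  apply hx
  funext i
  have := congrFun h (e i)
  simpa using this

theorem gaussInv_of_equiv {α β : Type*} [Fintype α] [Fintype β] (e : α ≃ β)
    (h : GaussInv α) : GaussInv β := by
  classical
  intro instβ B hB s hs b
  have hα := h (Classical.decEq α) (B.submatrix e e) (hB.submatrix e) s hs (fun i => b (e i))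
  let E : (α → ℤ) ≃ (β → ℤ) := Equiv.arrowCongr e (Equiv.refl ℤ)
  have hE : ∀ x' : α → ℤ, E x' = fun j => x' (e.symm j) := fun x' => rfl
  have h1 : ∑' x, gterm B s b x = ∑' x', gterm (B.submatrix e e) s (fun i => b (e i)) x' := by
    rw [← E.tsum_eq]
    refine tsum_congr fun x' => ?_
    rw [hE, gterm, gterm]
    have := cq_reindex e B (fun i => (x' i : ℂ))
    have := cl_reindex e b (fun i => (x' i : ℂ))
    simp_all
  have hinv : (B.submatrix e e)⁻¹ = B⁻¹.submatrix e e := Matrix.inv_submatrix_equiv B e e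
  have h2 : ∑' y, dterm B s b y = ∑' y', dterm (B.submatrix e e) s (fun i => b (e i)) y' := by
    rw [← E.tsum_eq]
    refine tsum_congr fun x' => ?_
    rw [hE, dterm, dterm, hinv]
    have := cq_reindex e B⁻¹ (fun i => (x' i : ℂ) + I * b (e i))
    simp only [Equiv.apply_symm_apply] at this
    rw [this]
  have h3 : gconst B s = gconst (B.submatrix e e) s := by
    rw [gconst, gconst, Matrix.det_submatrix_equiv_self, Fintype.card_congr e]
  rw [h1, h2, h3]
  convert hα

end general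

end Fermat.Agent.S16.H995

end
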