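/-
S16 helper (helper995): algebraic identities and the base case for the Gaussian inversion formula.
Mathlib only.
-/
import Fermat.Agent.S16.H995.GaussDefs

set_option autoImplicit false
set_option linter.unusedSectionVars false

open Complex Real Matrix

noncomputable section

namespace Fermat.Agent.S16.H995


theorem alg_split (s a k t b0 Q c : ℂ) (ha : a ≠ 0) :
    -π * s * (a * k ^ 2 + 2 * k * t + t ^ 2 / a + Q) + 2 * π * (b0 * k + c)
      = (-π * (s * a) * k ^ 2 + 2 * π * (b0 - s * t) * k)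
        + (-π * s * t ^ 2 / a - π * s * Q + 2 * π * c) := by
  field_simp
  ring

theorem alg_M (s a y t b0 Q c : ℂ) (hs : s ≠ 0) (ha : a ≠ 0) :
    (-π * s * t ^ 2 / a - π * s * Q + 2 * π * c) + (-π / (s * a) * (y + I * (b0 - s * t)) ^ 2)
      = -π / (s * a) * (y + I * b0) ^ 2 + (-π * s * Q + 2 * π * (c + I / a * (y + I * b0) * t)) := by
  field_simp
  linear_combination (-(s ^ 2 * t ^ 2)) * I_sq

theorem alg_D (s a w0 Qi : ℂ) (hs : s ≠ 0) (ha : a ≠ 0) :
    -π / (s * a) * w0 ^ 2 + (-π / s * Qi) = -π / s * (w0 ^ 2 / a + Qi) := by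
  field_simp
  ring

theorem alg_J (s a y b0 : ℂ) (hs : s ≠ 0) (ha : a ≠ 0) :
    -π / (s * a) * (y + I * b0) ^ 2
      = π * b0 ^ 2 / (s * a) + (2 * π * I * y * (-b0 / (s * a)) + π * I * y ^ 2 * (I / (s * a))) := by
  field_simp
  linear_combination (-(b0 ^ 2) - y ^ 2) * I_sq



theorem gaussInv_pempty : GaussInv PEmpty.{1} := by
  intro inst A hA s hs b
  have h1 : ∀ x : PEmpty.{1} → ℤ, gterm A s b x = 1 := by
    intro x; simp [gterm, cq, cl]
  have h2 : ∀ x : PEmpty.{1} → ℤ, dterm A s b x = 1 := by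
    intro x; simp [dterm, cq]
  have h3 : gconst A s = 1 := by
    simp [gconst]
  simp only [h1, h2, h3, one_mul]

variable {α : Type*} [Fintype α]

/-- The equivalence `ℤ × (α → ℤ) ≃ (Option α → ℤ)`. -/
def oconsEquiv (α : Type*) : ℤ × (α → ℤ) ≃ (Option α → ℤ) where
  toFun p := ocons p.1 p.2
  invFun x := (x none, fun i => x (some i))
  left_inv _ := rfl
  right_inv x := by funext o; cases o <;> rfl

theorem cpow_half_mul_ofReal {s : ℂ} (hs : 0 < s.re) {a : ℝ} (ha : 0 < a) :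
    (s * (a : ℂ)) ^ (1 / 2 : ℂ) = s ^ (1 / 2 : ℂ) * ((Real.sqrt a : ℝ) : ℂ) := by
  have hs0 : s ≠ 0 := fun h => by rw [h] at hs; simp at hs
  have ha0 : (a : ℂ) ≠ 0 := by exact_mod_cast ha.ne'
  rw [Complex.cpow_def_of_ne_zero (mul_ne_zero hs0 ha0), Complex.cpow_def_of_ne_zero hs0,
    mul_comm s, Complex.log_ofReal_mul ha hs0, add_mul, Complex.exp_add, mul_comm]
  congr 1
  rw [Real.sqrt_eq_rpow, Complex.ofReal_cpow ha.le, Complex.cpow_def_of_ne_zero ha0,
    Complex.ofReal_log ha.le]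
  push_cast
  rfl


end Fermat.Agent.S16.H995

end
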