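/-
S16 helper (helper995): the pieces of the inductive step of the Gaussian inversion formula.
Mathlib only.
-/
import Fermat.Agent.S16.H995.GaussAlg

set_option autoImplicit false
set_option linter.unusedSectionVars false

open Complex Real Matrix

noncomputable section

namespace Fermat.Agent.S16.H995

variable {α : Type*} [Fintype α]

theorem summable_quadratic_shift {c : ℂ} (hc : 0 < c.re) (b0 : ℂ) :
    Summable (fun y : ℤ => cexp (-π / c * ((y : ℂ) + I * b0) ^ 2)) := by
  have hc0 : c ≠ 0 := fun h => by rw [h] at hc; simp at hc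
  have hτ : 0 < (I / c).im := by
    rw [div_eq_mul_inv, Complex.I_mul_im, Complex.inv_re]
    exact div_pos hc (Complex.normSq_pos.mpr hc0)
  have h := ((summable_jacobiTheta₂_term_iff (-b0 / c) (I / c)).mpr hτ).mul_left
    (cexp (π * b0 ^ 2 / c))
  refine h.congr fun y => ?_
  rw [jacobiTheta₂_term, ← Complex.exp_add]
  congr 1
  have := alg_J c 1 (y : ℂ) b0 hc0 one_ne_zero
  simp only [mul_one] at this
  rw [this]

/-- The shifted linear coefficient used in the inductive step. -/
def bshift (A : Matrix (Option α) (Option α) ℝ) (b : Option α → ℂ) (y : ℤ) : α → ℂ :=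
  fun i => b (some i) + I / (A none none : ℂ) * ((y : ℂ) + I * b none) * rowC A i

theorem bshift_re (A : Matrix (Option α) (Option α) ℝ) (b : Option α → ℂ) (y : ℤ) (i : α) :
    (bshift A b y i).re = (bshift A b 0 i).re := by
  have : bshift A b y i = bshift A b 0 i
      + I * (((y : ℝ) * A none (some i) / A none none : ℝ) : ℂ) := by
    simp only [bshift, rowC]
    push_cast
    ring
  rw [this, Complex.add_re, Complex.I_mul_re, Complex.ofReal_im]
  simp

/-- The mixed term after the one-dimensional inversion. -/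
def mterm (A : Matrix (Option α) (Option α) ℝ) (s : ℂ) (b : Option α → ℂ) (y : ℤ)
    (x' : α → ℤ) : ℂ :=
  cexp (-π / (s * (A none none : ℂ)) * ((y : ℂ) + I * b none) ^ 2)
    * gterm (schur A) s (bshift A b y) x'

theorem gterm_ocons {A : Matrix (Option α) (Option α) ℝ} (hA : IsPD A) (s : ℂ)
    (b : Option α → ℂ) (k : ℤ) (x' : α → ℤ) :
    gterm A s b (ocons k x')
      = cexp (-π * (s * (A none none : ℂ)) * (k : ℂ) ^ 2
          + 2 * π * (b none - s * cl (rowC A) (fun i => (x' i : ℂ))) * (k : ℂ))
        * cexp (-π * s * (cl (rowC A) (fun i => (x' i : ℂ))) ^ 2 / (A none none : ℂ)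
          - π * s * cq (schur A) (fun i => (x' i : ℂ))
          + 2 * π * cl (fun i => b (some i)) (fun i => (x' i : ℂ))) := by
  have hac : ((A none none : ℝ) : ℂ) ≠ 0 := by exact_mod_cast hA.corner_pos.ne'
  rw [gterm, ← Complex.exp_add, ocons_intCast, cq_ocons A hA.symm hA.corner_pos.ne']
  congr 1
  have hb : b = ocons (b none) (fun i => b (some i)) := (ocons_eta b).symm
  conv_lhs => rw [hb, cl_ocons]
  rw [← alg_split _ _ _ _ _ _ _ hac]

theorem inner_eq_mterm {A : Matrix (Option α) (Option α) ℝ} (hA : IsPD A) {s : ℂ}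
    (hs : 0 < s.re) (b : Option α → ℂ) (y : ℤ) (x' : α → ℤ) :
    cexp (-π * s * (cl (rowC A) (fun i => (x' i : ℂ))) ^ 2 / (A none none : ℂ)
          - π * s * cq (schur A) (fun i => (x' i : ℂ))
          + 2 * π * cl (fun i => b (some i)) (fun i => (x' i : ℂ)))
      * cexp (-π / (s * (A none none : ℂ))
          * ((y : ℂ) + I * (b none - s * cl (rowC A) (fun i => (x' i : ℂ)))) ^ 2)
      = mterm A s b y x' := by
  have hac : ((A none none : ℝ) : ℂ) ≠ 0 := by exact_mod_cast hA.corner_pos.ne'
  have hs0 : s ≠ 0 := fun h => by rw [h] at hs; simp at hs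
  rw [mterm, gterm, ← Complex.exp_add, ← Complex.exp_add]
  congr 1
  rw [alg_M _ _ _ _ _ _ _ hs0 hac]
  congr 2
  have : cl (bshift A b y) (fun i => (x' i : ℂ))
      = cl (fun i => b (some i)) (fun i => (x' i : ℂ))
        + I / (A none none : ℂ) * ((y : ℂ) + I * b none) * cl (rowC A) (fun i => (x' i : ℂ)) := by
    simp only [cl, bshift, Finset.mul_sum, ← Finset.sum_add_distrib]
    exact Finset.sum_congr rfl fun i _ => by ring
  rw [this]

theorem mterm_dual {A : Matrix (Option α) (Option α) ℝ} [DecidableEq α] (hA : IsPD A) {s : ℂ}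
    (hs : 0 < s.re) (b : Option α → ℂ) (y : ℤ) (y' : α → ℤ) :
    cexp (-π / (s * (A none none : ℂ)) * ((y : ℂ) + I * b none) ^ 2)
      * dterm (schur A) s (bshift A b y) y' = dterm A s b (ocons y y') := by
  have hac : ((A none none : ℝ) : ℂ) ≠ 0 := by exact_mod_cast hA.corner_pos.ne'
  have hs0 : s ≠ 0 := fun h => by rw [h] at hs; simp at hs
  rw [dterm, dterm, ← Complex.exp_add]
  congr 1
  have h1 : (fun o => (((ocons y y' : Option α → ℤ) o : ℤ) : ℂ) + I * b o)
      = ocons ((y : ℂ) + I * b none) (fun i => (y' i : ℂ) + I * b (some i)) := by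
    funext o; cases o <;> rfl
  rw [h1, cq_inv_ocons hA, alg_D _ _ _ _ hs0 hac]
  congr 3
  funext i
  simp only [bshift]
  linear_combination ((((y : ℂ) + I * b none) * rowC A i) / (A none none : ℂ)) * I_sq

end Fermat.Agent.S16.H995

end
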