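/-
S16 helper (helper995): the inductive step of the Gaussian inversion formula (Schur complement +
one-dimensional Poisson summation `Complex.tsum_exp_neg_quadratic`).  Mathlib only.
-/
import Fermat.Agent.S16.H995.GaussPieces

set_option autoImplicit false
set_option linter.unusedSectionVars false

open Complex Real Matrix

noncomputable section

namespace Fermat.Agent.S16.H995

variable {α : Type*} [Fintype α]

theorem summable_mterm {A : Matrix (Option α) (Option α) ℝ} (hA : IsPD A) {s : ℂ}
    (hs : 0 < s.re) (b : Option α → ℂ) :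
    Summable (Function.uncurry (mterm A s b)) := by
  have ha := hA.corner_pos
  have hsa : 0 < (s * (A none none : ℂ)).re := by
    rw [Complex.re_mul_ofReal]; exact mul_pos hs ha
  have hf : Summable (fun y : ℤ =>
      ‖cexp (-π / (s * (A none none : ℂ)) * ((y : ℂ) + I * b none) ^ 2)‖) :=
    (summable_quadratic_shift hsa (b none)).norm
  have hg : Summable (fun x' : α → ℤ => ‖gterm (schur A) s (bshift A b 0) x'‖) :=
    summable_norm_gterm hA.schur hs _
  have hfg := Summable.mul_of_nonneg hf hg (fun _ => norm_nonneg _) (fun _ => norm_nonneg _)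
  refine Summable.of_norm_bounded hfg fun p => ?_
  rcases p with ⟨y, x'⟩
  simp only [Function.uncurry, mterm, norm_mul]
  rw [norm_gterm_congr (schur A) rfl (fun i => bshift_re A b y i) x']

theorem gconst_option [DecidableEq α] {A : Matrix (Option α) (Option α) ℝ} (hA : IsPD A)
    {s : ℂ} (hs : 0 < s.re) :
    1 / (s * (A none none : ℂ)) ^ (1 / 2 : ℂ) * gconst (schur A) s = gconst A s := by
  have ha := hA.corner_pos
  rw [gconst, gconst, cpow_half_mul_ofReal hs ha, Fintype.card_option,
    det_eq_corner_mul_det_schur A hA.symm ha.ne', Real.sqrt_mul ha.le, pow_succ]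
  push_cast
  ring

theorem gaussInv_option_aux [DecidableEq α] (ih : GaussInv α)
    (A : Matrix (Option α) (Option α) ℝ) (hA : IsPD A) (s : ℂ) (hs : 0 < s.re)
    (b : Option α → ℂ) :
    ∑' x, gterm A s b x = gconst A s * ∑' y, dterm A s b y := by
  have ha := hA.corner_pos
  have hsa : 0 < (s * (A none none : ℂ)).re := by
    rw [Complex.re_mul_ofReal]; exact mul_pos hs ha
  -- Step 1: split off the first variable
  have hGs : Summable (fun p : ℤ × (α → ℤ) => gterm A s b (ocons p.1 p.2)) :=
    (oconsEquiv α).summable_iff.mpr (summable_gterm hA hs b)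
  have e1 : ∑' x, gterm A s b x = ∑' p : ℤ × (α → ℤ), gterm A s b (ocons p.1 p.2) :=
    ((oconsEquiv α).tsum_eq _).symm
  have e2 : ∑' p : ℤ × (α → ℤ), gterm A s b (ocons p.1 p.2)
      = ∑' x' : α → ℤ, ∑' k : ℤ, gterm A s b (ocons k x') := by
    rw [hGs.tsum_prod]
    exact (Summable.tsum_comm (f := fun (k : ℤ) (x' : α → ℤ) => gterm A s b (ocons k x')) hGs).symm
  -- Step 2: one-dimensional inversion in the first variable
  have e3 : ∀ x' : α → ℤ, ∑' k : ℤ, gterm A s b (ocons k x')
      = 1 / (s * (A none none : ℂ)) ^ (1 / 2 : ℂ) * ∑' y : ℤ, mterm A s b y x' := by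
    intro x'
    simp_rw [gterm_ocons hA]
    rw [tsum_mul_right, Complex.tsum_exp_neg_quadratic hsa, mul_assoc, mul_comm (tsum _),
      ← tsum_mul_left]
    congr 1
    refine tsum_congr fun y => ?_
    exact inner_eq_mterm hA hs b y x'
  -- Step 3: exchange the sums
  have hMs := summable_mterm hA hs b
  have e4 : ∑' x' : α → ℤ, ∑' y : ℤ, mterm A s b y x' = ∑' y : ℤ, ∑' x' : α → ℤ, mterm A s b y x' :=
    Summable.tsum_comm (f := fun (y : ℤ) (x' : α → ℤ) => mterm A s b y x') hMs
  -- Step 4: induction hypothesis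
  have e5 : ∀ y : ℤ, ∑' x' : α → ℤ, mterm A s b y x'
      = gconst (schur A) s * ∑' y' : α → ℤ, dterm A s b (ocons y y') := by
    intro y
    simp only [mterm]
    rw [tsum_mul_left, ih _ (schur A) hA.schur s hs (bshift A b y), ← mul_assoc,
      mul_comm _ (gconst (schur A) s), mul_assoc, ← tsum_mul_left]
    congr 1
    refine tsum_congr fun y' => ?_
    exact mterm_dual hA hs b y y'
  -- Step 5: recombine
  have hDs : Summable (fun p : ℤ × (α → ℤ) => dterm A s b (ocons p.1 p.2)) :=
    (oconsEquiv α).summable_iff.mpr (summable_dterm hA hs b)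
  have e6 : ∑' y : ℤ, ∑' y' : α → ℤ, dterm A s b (ocons y y') = ∑' yy, dterm A s b yy := by
    rw [← hDs.tsum_prod]
    exact (oconsEquiv α).tsum_eq _
  calc ∑' x, gterm A s b x
      = ∑' x' : α → ℤ, ∑' k : ℤ, gterm A s b (ocons k x') := e1.trans e2
    _ = ∑' x' : α → ℤ, 1 / (s * (A none none : ℂ)) ^ (1 / 2 : ℂ) * ∑' y : ℤ, mterm A s b y x' :=
        tsum_congr e3
    _ = 1 / (s * (A none none : ℂ)) ^ (1 / 2 : ℂ) * ∑' y : ℤ, ∑' x' : α → ℤ, mterm A s b y x' := by
        rw [tsum_mul_left, e4]
    _ = 1 / (s * (A none none : ℂ)) ^ (1 / 2 : ℂ)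
          * ∑' y : ℤ, gconst (schur A) s * ∑' y' : α → ℤ, dterm A s b (ocons y y') := by
        rw [tsum_congr e5]
    _ = gconst A s * ∑' yy, dterm A s b yy := by
        rw [tsum_mul_left, e6, ← mul_assoc, gconst_option hA hs]

theorem gaussInv_option (ih : GaussInv α) : GaussInv (Option α) := by
  intro inst A hA s hs b
  classical
  have h := gaussInv_option_aux ih A hA s hs b
  convert h

end Fermat.Agent.S16.H995

end
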