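/-
S16 helper (helper995): **theta inversion formula** for positive definite quadratic forms in any
number of variables (Poisson summation for Gaussians), proved by induction on the number of
variables from the one-dimensional `Complex.tsum_exp_neg_quadratic`.  Mathlib only.

Main results (namespace `Fermat.Agent.S16.H995`):
* `gauss_inversion`, `gauss_inversion_posDef`
* `thetaChar_inversion`, `summable_thetaChar`
-/
import Fermat.Agent.S16.H995.GaussStep

set_option autoImplicit false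
set_option linter.unusedSectionVars false

open Complex Real Matrix

noncomputable section

namespace Fermat.Agent.S16.H995

universe u

theorem gaussInv_all (ι : Type u) [Fintype ι] : GaussInv ι := by
  refine Fintype.induction_empty_option (P := fun α _ => GaussInv α) ?_ ?_ ?_ ι
  · intro α β _ e h
    let _ : Fintype α := Fintype.ofEquiv β e.symm
    exact gaussInv_of_equiv e h
  · intro inst A hA s hs b
    have h1 : ∀ x : PEmpty.{u + 1} → ℤ, gterm A s b x = 1 := by
      intro x; simp [gterm, cq, cl]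
    have h2 : ∀ x : PEmpty.{u + 1} → ℤ, dterm A s b x = 1 := by
      intro x; simp [dterm, cq]
    have h3 : gconst A s = 1 := by
      simp [gconst]
    simp only [h1, h2, h3, one_mul]
  · intro α _ h
    exact gaussInv_option h

variable {ι : Type u} [Fintype ι] [DecidableEq ι]

/-- **Poisson summation for Gaussians attached to a positive definite quadratic form.**
For a real positive definite symmetric matrix `A`, `s` with positive real part and `b : ι → ℂ`:
`∑_{x ∈ ℤ^ι} exp (-π s xᵀAx + 2π b⬝x)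
   = s^{-n/2} (det A)^{-1/2} ∑_{y ∈ ℤ^ι} exp (-(π/s) (y + i b)ᵀ A⁻¹ (y + i b))`. -/
theorem gauss_inversion {A : Matrix ι ι ℝ} (hA : IsPD A) {s : ℂ} (hs : 0 < s.re) (b : ι → ℂ) :
    ∑' x : ι → ℤ, cexp (-π * s * cq A (fun i => (x i : ℂ)) + 2 * π * cl b (fun i => (x i : ℂ)))
      = 1 / (s ^ (1 / 2 : ℂ)) ^ (Fintype.card ι) * (1 / ((Real.sqrt A.det : ℝ) : ℂ))
        * ∑' y : ι → ℤ, cexp (-π / s * cq A⁻¹ (fun i => (y i : ℂ) + I * b i)) :=
  gaussInv_all ι _ A hA s hs b

/-- The same with Mathlib's `Matrix.PosDef`. -/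
theorem gauss_inversion_posDef {A : Matrix ι ι ℝ} (hA : A.PosDef) {s : ℂ} (hs : 0 < s.re)
    (b : ι → ℂ) :
    ∑' x : ι → ℤ, cexp (-π * s * cq A (fun i => (x i : ℂ)) + 2 * π * cl b (fun i => (x i : ℂ)))
      = 1 / (s ^ (1 / 2 : ℂ)) ^ (Fintype.card ι) * (1 / ((Real.sqrt A.det : ℝ) : ℂ))
        * ∑' y : ι → ℤ, cexp (-π / s * cq A⁻¹ (fun i => (y i : ℂ) + I * b i)) :=
  gauss_inversion (isPD_of_posDef hA) hs b

/-- The theta series with characteristic `h` of the quadratic form `A`:
`Θ_h(τ) = ∑_{x ∈ ℤ^ι} exp (π i τ (x+h)ᵀ A (x+h))`. -/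
def thetaChar (A : Matrix ι ι ℝ) (τ : ℂ) (h : ι → ℂ) : ℂ :=
  ∑' x : ι → ℤ, cexp (π * I * τ * cq A (fun i => (x i : ℂ) + h i))

/-- The dual theta sum `∑_{y ∈ ℤ^ι} exp (π i τ yᵀ A⁻¹ y - 2π i h⬝y)`. -/
def thetaDual (A : Matrix ι ι ℝ) (τ : ℂ) (h : ι → ℂ) : ℂ :=
  ∑' y : ι → ℤ, cexp (π * I * τ * cq A⁻¹ (fun i => (y i : ℂ))
    - 2 * π * I * cl h (fun i => (y i : ℂ)))

theorem summable_thetaChar {A : Matrix ι ι ℝ} (hA : IsPD A) {τ : ℂ} (hτ : 0 < τ.im)
    (h : ι → ℂ) :
    Summable (fun x : ι → ℤ => cexp (π * I * τ * cq A (fun i => (x i : ℂ) + h i))) := by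
  have hτ0 : τ ≠ 0 := fun h0 => by rw [h0] at hτ; simp at hτ
  have hs : 0 < (I / τ).re := by
    rw [div_eq_mul_inv, Complex.I_mul_re, Complex.inv_im]
    have : 0 < Complex.normSq τ := Complex.normSq_pos.mpr hτ0
    rw [neg_div, neg_neg]
    exact div_pos hτ this
  have hinv : (A⁻¹)⁻¹ = A := Matrix.nonsing_inv_nonsing_inv A hA.isUnit_det
  have := summable_dterm hA.inv hs (fun i => -I * h i)
  refine this.congr fun x => ?_
  rw [dterm, hinv]
  congr 1
  have h1 : (fun i => (x i : ℂ) + I * (-I * h i)) = fun i => (x i : ℂ) + h i := by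
    funext i
    linear_combination (-(h i)) * I_sq
  rw [h1]
  field_simp
  linear_combination (-(cq A (fun i => (x i : ℂ) + h i))) * I_sq

/-- **Theta inversion formula** for a positive definite quadratic form with characteristic. -/
theorem thetaChar_inversion {A : Matrix ι ι ℝ} (hA : IsPD A) {τ : ℂ} (hτ : 0 < τ.im)
    (h : ι → ℂ) :
    thetaChar A (-1 / τ) h
      = ((-I * τ) ^ (1 / 2 : ℂ)) ^ (Fintype.card ι) / ((Real.sqrt A.det : ℝ) : ℂ)
        * thetaDual A τ h := by
  have hτ0 : τ ≠ 0 := fun h0 => by rw [h0] at hτ; simp at hτ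
  have hs : 0 < (-I * τ).re := by
    simpa only [neg_mul, neg_re, mul_re, I_re, zero_mul, I_im, one_mul, zero_sub, neg_neg] using hτ
  have hs0 : (-I * τ) ≠ 0 := fun h0 => by rw [h0] at hs; simp at hs
  have hinv : (A⁻¹)⁻¹ = A := Matrix.nonsing_inv_nonsing_inv A hA.isUnit_det
  have hdet : (A⁻¹).det = (A.det)⁻¹ := by
    rw [Matrix.det_nonsing_inv, Ring.inverse_eq_inv']
  have key := gauss_inversion hA.inv hs (fun i => -I * h i)
  rw [hinv, hdet, Real.sqrt_inv] at key
  have hL : ∑' x : ι → ℤ, cexp (-π * (-I * τ) * cq A⁻¹ (fun i => (x i : ℂ))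
      + 2 * π * cl (fun i => -I * h i) (fun i => (x i : ℂ))) = thetaDual A τ h := by
    rw [thetaDual]
    refine tsum_congr fun x => ?_
    congr 1
    have : cl (fun i => -I * h i) (fun i => (x i : ℂ)) = -I * cl h (fun i => (x i : ℂ)) := by
      rw [cl, cl, Finset.mul_sum]
      exact Finset.sum_congr rfl fun i _ => by ring
    rw [this]
    ring
  have hR : ∑' y : ι → ℤ, cexp (-π / (-I * τ) * cq A (fun i => (y i : ℂ) + I * (-I * h i)))
      = thetaChar A (-1 / τ) h := by
    rw [thetaChar]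
    refine tsum_congr fun x => ?_
    congr 1
    have h1 : (fun i => (x i : ℂ) + I * (-I * h i)) = fun i => (x i : ℂ) + h i := by
      funext i
      linear_combination (-(h i)) * I_sq
    rw [h1]
    field_simp
    linear_combination (cq A (fun i => (x i : ℂ) + h i)) * I_sq
  rw [hL, hR] at key
  have hsq : ((Real.sqrt A.det : ℝ) : ℂ) ≠ 0 := by
    have := Real.sqrt_pos.mpr hA.det_pos
    exact_mod_cast this.ne'
  have hpw : ((-I * τ) ^ (1 / 2 : ℂ)) ^ (Fintype.card ι) ≠ 0 :=
    pow_ne_zero _ (by rw [Complex.cpow_ne_zero_iff]; exact Or.inl hs0)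
  rw [key]
  push_cast
  field_simp

end Fermat.Agent.S16.H995

end
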