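/-
S16 WP INV (helper995): quaternary theta inversion `ThetaInv p A B` for every good lattice, in the
frozen interface of `Fermat.Agent.S16.Interface`, deduced from the general n-dimensional theta
inversion formula `Fermat.Agent.S16.H995.thetaChar_inversion`.
-/
import Fermat.Agent.S16.Interface
import Fermat.Agent.S16.H995.ThetaInversion

set_option autoImplicit false
set_option linter.unusedSectionVars false

open Complex Real Matrix
open UpperHalfPlane hiding I

noncomputable section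

namespace Fermat.Agent.S16.H995

section general
variable {ι : Type*} [Fintype ι]

theorem cq_add (M : Matrix ι ι ℝ) (hs : ∀ i j, M i j = M j i) (v u : ι → ℂ) :
    cq M (fun i => v i + u i)
      = cq M v + 2 * cl (fun i => ∑ j, ((M i j : ℝ) : ℂ) * u j) v + cq M u := by
  have h1 : cl (fun i => ∑ j, ((M i j : ℝ) : ℂ) * u j) v = ∑ i, ∑ j, v i * ((M i j : ℝ) : ℂ) * u j := by
    simp only [cl, Finset.sum_mul]
    exact Finset.sum_congr rfl fun i _ => Finset.sum_congr rfl fun j _ => by ring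
  have h2 : ∑ i, ∑ j, u i * ((M i j : ℝ) : ℂ) * v j = ∑ i, ∑ j, v i * ((M i j : ℝ) : ℂ) * u j := by
    rw [Finset.sum_comm]
    refine Finset.sum_congr rfl fun i _ => Finset.sum_congr rfl fun j _ => ?_
    rw [hs j i]; ring
  have h3 : cq M (fun i => v i + u i) = cq M v + (∑ i, ∑ j, v i * ((M i j : ℝ) : ℂ) * u j)
      + (∑ i, ∑ j, u i * ((M i j : ℝ) : ℂ) * v j) + cq M u := by
    simp only [cq, ← Finset.sum_add_distrib]
    refine Finset.sum_congr rfl fun i _ => Finset.sum_congr rfl fun j _ => ?_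
    ring
  rw [h3, h2, h1]
  ring

theorem cq_neg (M : Matrix ι ι ℝ) (v : ι → ℂ) : cq M (fun i => -v i) = cq M v := by
  simp only [cq]
  refine Finset.sum_congr rfl fun i _ => Finset.sum_congr rfl fun j _ => ?_
  ring

theorem cl_neg_right (b v : ι → ℂ) : cl b (fun i => -v i) = -cl b v := by
  simp only [cl, mul_neg, Finset.sum_neg_distrib]

theorem cq_smul_matrix (c : ℝ) (M : Matrix ι ι ℝ) (v : ι → ℂ) :
    cq (c • M) v = (c : ℂ) * cq M v := by
  simp only [cq, Matrix.smul_apply, smul_eq_mul, Finset.mul_sum]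
  refine Finset.sum_congr rfl fun i _ => Finset.sum_congr rfl fun j _ => ?_
  push_cast
  ring

/-- `thetaDual` with the opposite sign of the linear term. -/
theorem thetaDual_eq_pos [DecidableEq ι] (A : Matrix ι ι ℝ) (τ : ℂ) (h : ι → ℂ) :
    thetaDual A τ h = ∑' y : ι → ℤ, cexp (π * I * τ * cq A⁻¹ (fun i => (y i : ℂ))
      + 2 * π * I * cl h (fun i => (y i : ℂ))) := by
  rw [thetaDual, ← (Equiv.neg (ι → ℤ)).tsum_eq]
  refine tsum_congr fun y => ?_
  have h1 : (fun i => (((Equiv.neg (ι → ℤ)) y i : ℤ) : ℂ)) = fun i => -((y i : ℤ) : ℂ) := by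
    funext i; simp
  rw [h1, cq_neg, cl_neg_right]
  congr 1
  ring

end general

/-! ### Adapter to the frozen S16 interface (`Fermat.Agent.S16.ThetaInv`) -/

theorem coe_S_smul (z : ℍ) : ((ModularGroup.S • z : ℍ) : ℂ) = -1 / (z : ℂ) := by
  rw [UpperHalfPlane.modular_S_smul]
  simp [neg_div, inv_neg]

/-- Real version of an integer matrix. -/
def toR (A : Matrix (Fin 4) (Fin 4) ℤ) : Matrix (Fin 4) (Fin 4) ℝ := A.map (Int.cast : ℤ → ℝ)

theorem toR_mul (A B : Matrix (Fin 4) (Fin 4) ℤ) : toR (A * B) = toR A * toR B := by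
  simp only [toR]
  exact Matrix.map_mul (f := Int.castRingHom ℝ)

theorem det_toR (A : Matrix (Fin 4) (Fin 4) ℤ) : (toR A).det = ((A.det : ℤ) : ℝ) := by
  simp only [toR]
  exact ((Int.castRingHom ℝ).map_det A).symm

theorem cq_toR_intCast (A : Matrix (Fin 4) (Fin 4) ℤ) (x : Fin 4 → ℤ) :
    cq (toR A) (fun i => (x i : ℂ)) = ((Fermat.Agent.S16.qf A x : ℤ) : ℂ) := by
  simp only [cq, toR, Fermat.Agent.S16.qf, dotProduct, Matrix.mulVec, Matrix.map_apply]
  push_cast
  simp only [Finset.mul_sum]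
  refine Finset.sum_congr rfl fun i _ => Finset.sum_congr rfl fun j _ => ?_
  ring


theorem cq_eq_cl {ι : Type*} [Fintype ι] (M : Matrix ι ι ℝ) (u : ι → ℂ) :
    cq M u = cl u (fun i => ∑ j, ((M i j : ℝ) : ℂ) * u j) := by
  simp only [cq, cl, Finset.mul_sum]
  refine Finset.sum_congr rfl fun i _ => Finset.sum_congr rfl fun j _ => ?_
  ring

/-- **WP INV of the S16 skeleton**, for every good lattice: the quaternary theta inversion. -/
theorem thetaInv_of_isGoodLattice (p : ℕ) (hp : p ≠ 0) (A B : Matrix (Fin 4) (Fin 4) ℤ)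
    (hAB : Fermat.Agent.S16.IsGoodLattice p A B) : Fermat.Agent.S16.ThetaInv p A B := by
  intro y z
  have hPD : IsPD (toR A) := isPD_of_posDef hAB.posDef
  have hpc : (p : ℂ) ≠ 0 := Nat.cast_ne_zero.mpr hp
  have hpr : (p : ℝ) ≠ 0 := Nat.cast_ne_zero.mpr hp
  have hsymm : ∀ i j, toR A i j = toR A j i := hPD.symm
  -- the inverse of `A`
  have hmul : toR A * toR B = (p : ℝ) • (1 : Matrix (Fin 4) (Fin 4) ℝ) := by
    rw [← toR_mul, hAB.mul_eq]
    ext i j
    simp only [toR, Matrix.map_apply, Matrix.smul_apply, Matrix.one_apply, smul_eq_mul]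
    split_ifs <;> simp
  have hinv : (toR A)⁻¹ = (p : ℝ)⁻¹ • toR B := by
    apply Matrix.inv_eq_right_inv
    rw [Matrix.mul_smul, hmul, smul_smul, inv_mul_cancel₀ hpr, one_smul]
  -- the characteristic
  set hv : Fin 4 → ℂ := fun i => ((B.mulVec y i : ℤ) : ℂ) / p with hhv
  have hABy : ∀ i, ∑ j, A i j * B.mulVec y j = (p : ℤ) * y i := by
    intro i
    have := congrFun (congrArg (fun M => M.mulVec y) hAB.mul_eq) i
    simp only [← Matrix.mulVec_mulVec, Matrix.smul_mulVec, Matrix.one_mulVec, Pi.smul_apply,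
      smul_eq_mul] at this
    simpa [Matrix.mulVec, dotProduct] using this
  have hAh : ∀ i, ∑ j, ((toR A i j : ℝ) : ℂ) * hv j = (y i : ℂ) := by
    intro i
    have h1 := congrArg (fun n : ℤ => (n : ℂ)) (hABy i)
    simp only [Int.cast_sum, Int.cast_mul, Int.cast_natCast] at h1
    simp only [hhv, toR, Matrix.map_apply]
    have h2 : ∑ j, (((A i j : ℤ) : ℝ) : ℂ) * (((B.mulVec y j : ℤ) : ℂ) / p)
        = (∑ j, ((A i j : ℤ) : ℂ) * ((B.mulVec y j : ℤ) : ℂ)) / p := by
      rw [Finset.sum_div]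
      refine Finset.sum_congr rfl fun j _ => ?_
      push_cast
      ring
    rw [h2, h1]
    field_simp
  -- Step A: the interface theta series is a `thetaChar`
  have hA1 : ∀ w : ℍ, Fermat.Agent.S16.thetaChar p A B y w = thetaChar (toR A) (w : ℂ) hv := by
    intro w
    rw [Fermat.Agent.S16.thetaChar, thetaChar]
    refine tsum_congr fun x => ?_
    congr 2
    rw [cq_add (toR A) hsymm, cq_toR_intCast, cq_eq_cl (toR A) hv]
    simp only [hAh]
    have h3 : cl (fun i => (y i : ℂ)) (fun i => (x i : ℂ)) = ((x ⬝ᵥ y : ℤ) : ℂ) := by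
      simp only [cl, dotProduct]
      push_cast
      exact Finset.sum_congr rfl fun i _ => by ring
    have h4 : cl hv (fun i => (y i : ℂ)) = ((Fermat.Agent.S16.qf B y : ℤ) : ℂ) / p := by
      simp only [cl, hhv, Fermat.Agent.S16.qf, dotProduct]
      push_cast
      rw [Finset.sum_div]
      exact Finset.sum_congr rfl fun i _ => by ring
    rw [h3, h4]
  rw [hA1, coe_S_smul, thetaChar_inversion hPD z.im_pos hv, thetaDual_eq_pos, hinv]
  -- constants
  have hdet : (toR A).det = (p : ℝ) ^ 2 := by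
    rw [det_toR, hAB.det_eq]; push_cast; ring
  have hsqrt : Real.sqrt (toR A).det = (p : ℝ) := by
    rw [hdet, Real.sqrt_sq (Nat.cast_nonneg p)]
  have hpow : ((-I * (z : ℂ)) ^ (1 / 2 : ℂ)) ^ (Fintype.card (Fin 4)) = -(z : ℂ) ^ 2 := by
    have h2 : ((-I * (z : ℂ)) ^ (1 / 2 : ℂ)) ^ 2 = -I * (z : ℂ) := by
      have := Complex.cpow_nat_inv_pow (-I * (z : ℂ)) (n := 2) (by norm_num)
      simp only [Nat.cast_ofNat] at this
      rw [one_div]
      exact this
    rw [Fintype.card_fin, show (4 : ℕ) = 2 * 2 from rfl, pow_mul, h2]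
    linear_combination ((z : ℂ) ^ 2) * I_sq
  rw [hsqrt, hpow]
  congr 1
  refine tsum_congr fun w => ?_
  congr 1
  rw [cq_smul_matrix, cq_toR_intCast]
  have h5 : cl hv (fun i => (w i : ℂ)) = ((w ⬝ᵥ B.mulVec y : ℤ) : ℂ) / p := by
    simp only [cl, hhv, dotProduct]
    push_cast
    rw [Finset.sum_div]
    exact Finset.sum_congr rfl fun i _ => by ring
  rw [h5]
  push_cast
  ring


/-- WP INV in the exact shape of the S16 skeleton (`Skel.theta_inversion`). -/
theorem theta_inversion (p : ℕ) [Fact p.Prime] (q r t : ℤ) (_hq : 0 < q) (_hq4 : q % 4 = 3)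
    (_hrt : r ^ 2 + (p : ℤ) = q * t) (B : Matrix (Fin 4) (Fin 4) ℤ)
    (hA : Fermat.Agent.S16.IsGoodLattice p (Fermat.Agent.S16.ibuA p q r t) B) :
    Fermat.Agent.S16.ThetaInv p (Fermat.Agent.S16.ibuA p q r t) B :=
  thetaInv_of_isGoodLattice p (Fact.out : p.Prime).ne_zero _ B hA

end Fermat.Agent.S16.H995

end
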